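import Fermat.Agent.ExistenceTheorem.HilbertClassField
import Fermat.Agent.ClassField94.Solvable

/-!
# Extensions unramified at every place in towers

Being unramified at every place passes up and down towers and along base change, and the Hilbert
class field of a Galois unramified extension of `K` is Galois over `K`.
-/

set_option autoImplicit false
set_option linter.unusedSectionVars false

noncomputable section

namespace Fermat.Agent.ClassFieldTower

open NumberField IsDedekindDomain
open FA.ClassField94 (UnramifiedPrimes)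

/-- Unramified at every place, finite or infinite. -/
def UnrEverywhere (K L : Type) [Field K] [NumberField K] [Field L] [NumberField L] [Algebra K L] :
    Prop :=
  UnramifiedPrimes K L ∧ IsUnramifiedAtInfinitePlaces K L

section tower

variable {K E L : Type} [Field K] [NumberField K] [Field E] [NumberField E] [Field L]
  [NumberField L] [Algebra K E] [Algebra E L] [Algebra K L] [IsScalarTower K E L]

theorem UnrEverywhere.trans (h : UnrEverywhere K E) (h' : UnrEverywhere E L) :
    UnrEverywhere K L := by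
  have := h.2
  have := h'.2
  refine ⟨fun P hP hP0 => ?_, IsUnramifiedAtInfinitePlaces.trans (k := K) (K := E) (F := L)⟩
  have : P.IsMaximal := hP.isMaximal hP0
  have hw0 : P.under (𝓞 E) ≠ ⊥ := Ideal.under_ne_bot _ hP0
  have : (P.under (𝓞 E)).IsMaximal := Ideal.IsPrime.isMaximal inferInstance hw0
  rw [Ideal.ramificationIdx_tower (R := 𝓞 K) (P.under (𝓞 E)) P, h'.1 P hP hP0,
    h.1 _ inferInstance hw0]

theorem UnrEverywhere.top (h : UnrEverywhere K L) : UnrEverywhere E L := by
  have := h.2
  refine ⟨fun P hP hP0 => ?_, IsUnramifiedAtInfinitePlaces.top (k := K) (K := E) (F := L)⟩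
  have : P.IsMaximal := hP.isMaximal hP0
  have hw0 : P.under (𝓞 E) ≠ ⊥ := Ideal.under_ne_bot _ hP0
  have : (P.under (𝓞 E)).IsMaximal := Ideal.IsPrime.isMaximal inferInstance hw0
  have h1 := h.1 P hP hP0
  rw [Ideal.ramificationIdx_tower (R := 𝓞 K) (P.under (𝓞 E)) P] at h1
  first
    | exact Nat.eq_one_of_mul_eq_one_left h1
    | exact Nat.eq_one_of_mul_eq_one_right h1

theorem UnrEverywhere.bot (h : UnrEverywhere K L) : UnrEverywhere K E := by
  have := h.2
  refine ⟨fun P hP hP0 => ?_, IsUnramifiedAtInfinitePlaces.bot K E L⟩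
  have : P.IsMaximal := hP.isMaximal hP0
  obtain ⟨Q, hQ, hQP⟩ := Ideal.exists_maximal_ideal_liesOver_of_isIntegral (S := 𝓞 L) P
  have hQ0 : Q ≠ ⊥ := Ideal.ne_bot_of_liesOver_of_ne_bot hP0 Q
  have h1 := h.1 Q hQ.isPrime hQ0
  rw [Ideal.ramificationIdx_tower (R := 𝓞 K) P Q] at h1
  first
    | exact Nat.eq_one_of_mul_eq_one_right h1
    | exact Nat.eq_one_of_mul_eq_one_left h1

end tower

theorem UnrEverywhere.of_algEquiv {K L L' : Type} [Field K] [NumberField K] [Field L]
    [NumberField L] [Field L'] [NumberField L'] [Algebra K L] [Algebra K L']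
    (h : UnrEverywhere K L) (e : L' ≃ₐ[K] L) : UnrEverywhere K L' :=
  let _ : Algebra L' L := e.toAlgHom.toRingHom.toAlgebra
  have : IsScalarTower K L' L := IsScalarTower.of_algebraMap_eq fun x => (e.commutes x).symm
  h.bot

section galois

variable {K L : Type} [Field K] [NumberField K] [Field L] [NumberField L] [Algebra K L]
  [IsGalois K L]

theorem inertia_eq_bot (h : UnramifiedPrimes K L) (Q : Ideal (𝓞 L)) (hQ : Q.IsPrime)
    (hQ0 : Q ≠ ⊥) : Q.inertia (L ≃ₐ[K] L) = ⊥ := by
  have : Q.IsMaximal := hQ.isMaximal hQ0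
  have hw0 : Q.under (𝓞 K) ≠ ⊥ := Ideal.under_ne_bot _ hQ0
  have : (Q.under (𝓞 K)).IsMaximal := Ideal.IsPrime.isMaximal inferInstance hw0
  have : Finite (𝓞 K ⧸ Q.under (𝓞 K)) := Ideal.finiteQuotientOfFreeOfNeBot _ hw0
  have hcard := Ideal.card_inertia_eq_ramificationIdxIn (G := L ≃ₐ[K] L) (Q.under (𝓞 K)) Q
  rw [Ideal.ramificationIdxIn_eq_ramificationIdx (Q.under (𝓞 K)) Q (L ≃ₐ[K] L), h Q hQ hQ0]
    at hcard
  exact Subgroup.card_eq_one.1 hcard

theorem unramifiedPrimes_of_inertia_eq_bot
    (h : ∀ Q : Ideal (𝓞 L), Q.IsPrime → Q ≠ ⊥ → Q.inertia (L ≃ₐ[K] L) = ⊥) :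
    UnramifiedPrimes K L := fun Q hQ hQ0 => by
  have : Q.IsMaximal := hQ.isMaximal hQ0
  have hw0 : Q.under (𝓞 K) ≠ ⊥ := Ideal.under_ne_bot _ hQ0
  have : (Q.under (𝓞 K)).IsMaximal := Ideal.IsPrime.isMaximal inferInstance hw0
  have : Finite (𝓞 K ⧸ Q.under (𝓞 K)) := Ideal.finiteQuotientOfFreeOfNeBot _ hw0
  have hcard := Ideal.card_inertia_eq_ramificationIdxIn (G := L ≃ₐ[K] L) (Q.under (𝓞 K)) Q
  rw [h Q hQ hQ0, Subgroup.card_bot,
    Ideal.ramificationIdxIn_eq_ramificationIdx (Q.under (𝓞 K)) Q (L ≃ₐ[K] L)] at hcard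
  exact hcard.symm

end galois

section baseChange

variable {K L F M : Type} [Field K] [NumberField K] [Field L] [NumberField L] [Field F]
  [NumberField F] [Field M] [NumberField M] [Algebra K L] [Algebra K F] [Algebra K M]
  [Algebra L M] [Algebra F M] [IsScalarTower K L M] [IsScalarTower K F M] [IsGalois K L]
  [IsGalois F M]

/-- Restriction of `Gal(M/F)` to `L`. -/
def restrictBase (K L F M : Type) [Field K] [Field L] [Field F] [Field M] [Algebra K L]
    [Algebra K F] [Algebra K M] [Algebra L M] [Algebra F M] [IsScalarTower K L M]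
    [IsScalarTower K F M] [Normal K L] : (M ≃ₐ[F] M) →* (L ≃ₐ[K] L) :=
  MonoidHom.mk' (fun s => (s.restrictScalars K).restrictNormal L)
    fun s t => (map_mul (AlgEquiv.restrictNormalHom L) (s.restrictScalars K) (t.restrictScalars K))

theorem algebraMap_restrictBase (s : M ≃ₐ[F] M) (x : L) :
    algebraMap L M (restrictBase K L F M s x) = s (algebraMap L M x) :=
  (s.restrictScalars K).restrictNormal_commutes L x

/-- **Base change** of an unramified extension. -/
theorem UnrEverywhere.baseChange (h : UnrEverywhere K L)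
    (hinj : Function.Injective (restrictBase K L F M)) : UnrEverywhere F M := by
  refine ⟨unramifiedPrimes_of_inertia_eq_bot fun Q hQ hQ0 =>
    (Subgroup.eq_bot_iff_forall _).2 fun s hs => hinj ?_, ⟨fun w => ?_⟩⟩
  · have hmem : restrictBase K L F M s ∈ (Q.under (𝓞 L)).inertia (L ≃ₐ[K] L) := fun y => by
      show restrictBase K L F M s • y - y ∈ Q.comap (algebraMap (𝓞 L) (𝓞 M))
      rw [Ideal.mem_comap, map_sub, show algebraMap (𝓞 L) (𝓞 M) (restrictBase K L F M s • y) =
        s • algebraMap (𝓞 L) (𝓞 M) y from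
          RingOfIntegers.ext (algebraMap_restrictBase (K := K) s (y : L))]
      exact hs _
    rw [inertia_eq_bot h.1 _ inferInstance (Ideal.under_ne_bot _ hQ0), Subgroup.mem_bot] at hmem
    rw [hmem, map_one]
  · rw [InfinitePlace.isUnramified_iff_stabilizer_eq_bot, Subgroup.eq_bot_iff_forall]
    intro s hs
    refine hinj ?_
    have := h.2
    have h1 : restrictBase K L F M s ∈
        MulAction.stabilizer (L ≃ₐ[K] L) (w.comap (algebraMap L M)) := by
      refine InfinitePlace.ext _ _ fun x => ?_
      rw [InfinitePlace.smul_apply, InfinitePlace.comap_apply, InfinitePlace.comap_apply]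
      conv_rhs => rw [← MulAction.mem_stabilizer_iff.1 hs, InfinitePlace.smul_apply]
      congr 1
      rw [show (restrictBase K L F M s).symm = restrictBase K L F M s⁻¹ from
        (map_inv (restrictBase K L F M) s).symm, algebraMap_restrictBase]
      rfl
    rw [InfinitePlace.isUnramified_iff_stabilizer_eq_bot.1 (InfinitePlace.isUnramified K _),
      Subgroup.mem_bot] at h1
    rw [h1, map_one]

end baseChange

/-- **The Hilbert class field**: maximal abelian unramified at every place, with the class group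
as Galois group. -/
structure IsHilbertClassField (E L : Type) [Field E] [NumberField E] [Field L] [NumberField L]
    [Algebra E L] : Prop where
  isGalois : IsGalois E L
  comm : ∀ g h : L ≃ₐ[E] L, g * h = h * g
  unr : UnrEverywhere E L
  equiv : Nonempty (ClassGroup (𝓞 E) ≃* (L ≃ₐ[E] L))
  maximal : ∀ (X : Type) [Field X] [NumberField X] [Algebra E X] [IsGalois E X],
    (∀ g h : X ≃ₐ[E] X, g * h = h * g) → UnrEverywhere E X → Nonempty (X →ₐ[E] L)

theorem IsHilbertClassField.finrank_eq {E L : Type} [Field E] [NumberField E] [Field L]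
    [NumberField L] [Algebra E L] (h : IsHilbertClassField E L) :
    Module.finrank E L = classNumber E := by
  have := h.isGalois
  obtain ⟨e⟩ := h.equiv
  rw [← IsGalois.card_aut_eq_finrank, ← Nat.card_congr e.toEquiv, classNumber,
    Nat.card_eq_fintype_card]

theorem IsHilbertClassField.of_algEquiv {E L L' : Type} [Field E] [NumberField E] [Field L]
    [NumberField L] [Field L'] [NumberField L'] [Algebra E L] [Algebra E L']
    (h : IsHilbertClassField E L) (e : L ≃ₐ[E] L') : IsHilbertClassField E L' := by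
  have := h.isGalois
  refine ⟨IsGalois.of_algEquiv e, fun g g' => e.autCongr.symm.injective ?_,
    h.unr.of_algEquiv e.symm, h.equiv.map fun f => f.trans e.autCongr,
    fun X _ _ _ _ hc hu => (h.maximal X hc hu).map e.toAlgHom.comp⟩
  rw [map_mul, map_mul, h.comm]

/-- The Hilbert class field exists. -/
theorem exists_isHilbertClassField (E : Type) [Field E] [NumberField E] :
    ∃ (L : Type) (_ : Field L) (_ : NumberField L) (_ : Algebra E L), IsHilbertClassField E L := by
  obtain ⟨L, _, _, _, _, _, hunr, hinf, ⟨e, -⟩, hL⟩ := FA.ArtinRec.exists_hilbertClassField E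
  refine ⟨L, inferInstance, inferInstance, inferInstance, inferInstance,
    fun g h => mul_comm' g h, ⟨fun P hP hP0 => ?_, hinf⟩, ⟨e⟩,
    fun X _ _ _ _ hc hu => ?_⟩
  · have : Algebra.IsUnramifiedAt (𝓞 E) P := Algebra.unramified_iff_forall.1 hunr ⟨P, hP⟩
    exact Ideal.ramificationIdx_eq_one_iff.2 this
  · have : IsMulCommutative (X ≃ₐ[E] X) := ⟨⟨hc⟩⟩
    have := hu.2
    exact FA.ArtinRec.exists_algHom_hilbertClassField E hL fun v ⟨Q, _, hne⟩ =>
      hne (inertia_eq_bot hu.1 _ Q.isPrime Q.ne_bot)

section twist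

variable {K E L : Type} [Field K] [Field E] [Field L] [Algebra K E] [Algebra E L] [Algebra K L]
  [IsScalarTower K E L]

/-- `L` with `E` acting through an automorphism. -/
def Twisted (_σ : E ≃ₐ[K] E) (L : Type) : Type := L

instance (σ : E ≃ₐ[K] E) : Field (Twisted σ L) := inferInstanceAs (Field L)

instance (σ : E ≃ₐ[K] E) : Algebra K (Twisted σ L) := inferInstanceAs (Algebra K L)

instance (σ : E ≃ₐ[K] E) [NumberField L] : NumberField (Twisted σ L) :=
  inferInstanceAs (NumberField L)

instance twistedAlgebra (σ : E ≃ₐ[K] E) : Algebra E (Twisted σ L) :=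
  RingHom.toAlgebra ((algebraMap E L).comp (σ.symm : E →+* E))

instance (σ : E ≃ₐ[K] E) : IsScalarTower K E (Twisted σ L) :=
  IsScalarTower.of_algebraMap_eq fun x => by
    show algebraMap K L x = algebraMap E L (σ.symm (algebraMap K E x))
    rw [σ.symm.commutes, ← IsScalarTower.algebraMap_apply]

/-- The identity, from `L` to its twist. -/
def toTwisted (σ : E ≃ₐ[K] E) : L ≃ₐ[K] Twisted σ L := AlgEquiv.refl

theorem toTwisted_algebraMap (σ : E ≃ₐ[K] E) (z : E) :
    toTwisted σ (algebraMap E L z) = algebraMap E (Twisted σ L) (σ z) :=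
  show algebraMap E L z = algebraMap E L (σ.symm (σ z)) by rw [σ.symm_apply_apply]

variable [NumberField K] [NumberField E] [NumberField L]

/-- Automorphisms of `E` extend to its Hilbert class field. -/
theorem exists_extend_aut (hL : IsHilbertClassField E L) (hKE : UnrEverywhere K E)
    (σ : E ≃ₐ[K] E) :
    ∃ τ : L ≃ₐ[K] L, ∀ z : E, τ (algebraMap E L z) = algebraMap E L (σ z) := by
  have := hL.isGalois
  have hKL : UnrEverywhere K L := hKE.trans hL.unr
  have hT : UnrEverywhere E (Twisted σ L) := (hKL.of_algEquiv (toTwisted σ).symm).top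
  have : IsGalois E (Twisted σ L) :=
    IsGalois.of_equiv_equiv (F := E) (E := L) (f := σ.toRingEquiv) (g := (toTwisted σ).toRingEquiv)
      (RingHom.ext fun z => (toTwisted_algebraMap σ z).symm)
  let back : (Twisted σ L ≃ₐ[E] Twisted σ L) → (L ≃ₐ[E] L) := fun t =>
    AlgEquiv.ofRingEquiv (f := ((toTwisted σ).toRingEquiv.trans t.toRingEquiv).trans
      (toTwisted σ).symm.toRingEquiv) fun z => by
        show (toTwisted σ).symm (t (toTwisted σ (algebraMap E L z))) = algebraMap E L z
        rw [toTwisted_algebraMap, t.commutes, ← toTwisted_algebraMap,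
          AlgEquiv.symm_apply_apply]
  have hcomm : ∀ g h : Twisted σ L ≃ₐ[E] Twisted σ L, g * h = h * g := fun g h =>
    AlgEquiv.ext fun x => AlgEquiv.congr_fun (hL.comm (back g) (back h)) x
  obtain ⟨f⟩ := hL.maximal (Twisted σ L) hcomm hT
  let f' : L →ₐ[K] L := (f.restrictScalars K).comp (toTwisted σ).toAlgHom
  refine ⟨AlgEquiv.ofBijective f' f'.bijective, fun z => ?_⟩
  show f (toTwisted σ (algebraMap E L z)) = _
  rw [toTwisted_algebraMap, f.commutes]

/-- **The Hilbert class field of an unramified Galois extension is Galois.** -/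
theorem IsHilbertClassField.isGalois_base (hL : IsHilbertClassField E L) [IsGalois K E]
    (hKE : UnrEverywhere K E) : IsGalois K L := by
  have := hL.isGalois
  have : FiniteDimensional K L := Module.Finite.of_restrictScalars_finite ℚ K L
  let r := AlgEquiv.restrictNormalHom (F := K) (K₁ := L) E
  have hr : Function.Surjective r := fun σ => by
    obtain ⟨τ, hτ⟩ := exists_extend_aut hL hKE σ
    exact ⟨τ, AlgEquiv.ext fun z => (algebraMap E L).injective
      ((τ.restrictNormal_commutes E z).trans (hτ z))⟩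
  let i : (L ≃ₐ[E] L) → r.ker := fun s => ⟨s.restrictScalars K, MonoidHom.mem_ker.2
    (AlgEquiv.ext fun z => (algebraMap E L).injective
      (((s.restrictScalars K).restrictNormal_commutes E z).trans (s.commutes z)))⟩
  have hi : Function.Injective i := fun s t h => AlgEquiv.ext fun x =>
    AlgEquiv.congr_fun (congrArg Subtype.val h) x
  refine IsGalois.of_card_aut_eq_finrank K L (le_antisymm ?_ ?_)
  · rw [Nat.card_eq_fintype_card]
    exact AlgEquiv.card_le
  · rw [← Module.finrank_mul_finrank K E L, ← IsGalois.card_aut_eq_finrank K E,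
      ← IsGalois.card_aut_eq_finrank E L, Subgroup.card_eq_card_quotient_mul_card_subgroup r.ker,
      Nat.card_congr (QuotientGroup.quotientKerEquivOfSurjective r hr).toEquiv]
    exact Nat.mul_le_mul_left _ (Nat.card_le_card_of_injective i hi)

/-- Solvable over the base. -/
theorem isSolvable_base [IsGalois K E] [IsGalois K L] [Group.IsSolvable (E ≃ₐ[K] E)]
    [Group.IsSolvable (L ≃ₐ[E] L)] : Group.IsSolvable (L ≃ₐ[K] L) := by
  have : FiniteDimensional K L := Module.Finite.of_restrictScalars_finite ℚ K L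
  let j : (L ≃ₐ[E] L) →* (L ≃ₐ[K] L) :=
    MonoidHom.mk' (fun s => s.restrictScalars K) fun _ _ => rfl
  refine Group.isSolvable_of_ker_le_range j (AlgEquiv.restrictNormalHom E) fun s hs => ?_
  have h : ∀ z : E, s.toRingEquiv (algebraMap E L z) = algebraMap E L z := fun z => by
    rw [MonoidHom.mem_ker] at hs
    exact (s.restrictNormal_commutes E z).symm.trans
      (congrArg _ (AlgEquiv.congr_fun hs z))
  exact ⟨AlgEquiv.ofRingEquiv h, AlgEquiv.ext fun _ => rfl⟩

end twist

end Fermat.Agent.ClassFieldTower
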