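import Fermat.Agent.ClassFieldTower.Basic

/-!
# Termination for a cyclic `p`-class group

With cyclic `p`-class group every Galois `p`-extension unramified at every place is cyclic of
degree dividing the class number, and the `p`-class field has class number prime to `p`.
-/

set_option autoImplicit false
set_option linter.unusedSectionVars false

noncomputable section

namespace Fermat.Agent.ClassFieldTower

open NumberField
open scoped commutatorElement

/-- A nilpotent group with cyclic abelianisation is cyclic. -/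
theorem isCyclic_of_isCyclic_abelianization {G : Type*} [Group G] [Finite G]
    [Group.IsNilpotent G] (h : IsCyclic (G ⧸ commutator G)) : IsCyclic G := by
  obtain ⟨x, hx⟩ := h.exists_generator
  obtain ⟨g, rfl⟩ := QuotientGroup.mk_surjective x
  refine ⟨g, fun y => ?_⟩
  suffices Subgroup.zpowers g = ⊤ by
    show y ∈ Subgroup.zpowers g
    rw [this]
    exact Subgroup.mem_top y
  by_contra hne
  obtain ⟨H, hH, hle⟩ := (eq_top_or_exists_le_coatom (Subgroup.zpowers g)).resolve_left hne
  have hn : H.Normal := Subgroup.NormalizerCondition.normal_of_coatom H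
    Group.normalizerCondition_of_isNilpotent hH
  let π : G →* G ⧸ H := QuotientGroup.mk' H
  have hcomm : commutator G ≤ H := by
    rw [commutator_def, Subgroup.commutator_le]
    intro a _ b _
    rw [← QuotientGroup.eq_one_iff, show ((⁅a, b⁆ : G) : G ⧸ H) = ⁅π a, π b⁆ from
      map_commutatorElement π a b, commutatorElement_eq_one_iff_commute]
    by_cases ha : a ∈ H
    · rw [show π a = 1 from (QuotientGroup.eq_one_iff a).2 ha]
      exact Commute.one_left _
    have hlt : H < (Subgroup.zpowers (π a)).comap π := by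
      refine lt_of_le_of_ne (fun z hz => ?_) fun e => ha ?_
      · rw [Subgroup.mem_comap, show π z = 1 from (QuotientGroup.eq_one_iff z).2 hz]
        exact one_mem _
      · rw [e]
        exact Subgroup.mem_zpowers _
    obtain ⟨k, hk⟩ : π b ∈ Subgroup.zpowers (π a) :=
      (hH.2 _ hlt).ge (Subgroup.mem_top b)
    exact hk ▸ (Commute.refl (π a)).zpow_right k
  refine hH.1 (eq_top_iff.2 fun z _ => ?_)
  obtain ⟨k, hk⟩ := hx (z : G ⧸ commutator G)
  have hk' : ((g ^ k : G) : G ⧸ commutator G) = (z : G ⧸ commutator G) := hk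
  have h1 := mul_mem (zpow_mem (hle (Subgroup.mem_zpowers g)) k)
    (hcomm (QuotientGroup.eq.1 hk'))
  rwa [mul_inv_cancel_left] at h1

/-- An abelian extension unramified at every place is a quotient of the class group. -/
theorem exists_classGroup_surjective {K X : Type} [Field K] [NumberField K] [Field X]
    [NumberField X] [Algebra K X] [IsGalois K X] (hc : ∀ g h : X ≃ₐ[K] X, g * h = h * g)
    (hu : UnrEverywhere K X) :
    ∃ f : ClassGroup (𝓞 K) →* (X ≃ₐ[K] X), Function.Surjective f := by
  obtain ⟨L, _, _, _, hL⟩ := exists_isHilbertClassField K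
  have := hL.isGalois
  obtain ⟨φ⟩ := hL.maximal X hc hu
  obtain ⟨e⟩ := hL.equiv
  let _ : Algebra X L := φ.toRingHom.toAlgebra
  have : IsScalarTower K X L := IsScalarTower.of_algebraMap_eq fun x => (φ.commutes x).symm
  have : Normal K L := IsGalois.to_normal
  exact ⟨(AlgEquiv.restrictNormalHom X).comp e.toMonoidHom,
    (AlgEquiv.restrictNormalHom_surjective L).comp e.surjective⟩

variable {p : ℕ} [hp : Fact p.Prime]

/-- The image of a finite abelian group in a `p`-group is the image of its primary component. -/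
theorem isCyclic_of_primaryComponent {C Q : Type*} [CommGroup C] [Finite C] [Group Q] [Finite Q]
    (f : C →* Q) (hf : Function.Surjective f) (hQ : IsPGroup p Q)
    (hC : IsCyclic (CommGroup.primaryComponent C p)) : IsCyclic Q := by
  obtain ⟨a, m, hm, hcard⟩ := Nat.exists_eq_pow_mul_and_not_dvd
    (Nat.card_pos (α := C)).ne' p hp.out.ne_one
  refine isCyclic_of_surjective (f.comp (CommGroup.primaryComponent C p).subtype) fun q => ?_
  obtain ⟨c, rfl⟩ := hf q
  obtain ⟨b, hb⟩ := hQ (f c)
  have hco : m.Coprime (orderOf (f c)) :=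
    Nat.Coprime.coprime_dvd_right (orderOf_dvd_of_pow_eq_one hb)
      (((Nat.Prime.coprime_iff_not_dvd hp.out).2 hm).symm.pow_right b)
  obtain ⟨u, hu⟩ := exists_pow_eq_self_of_coprime hco
  refine ⟨⟨c ^ (m * u), CommGroup.mem_primaryComponent.2 ⟨a, ?_⟩⟩, ?_⟩
  · rw [← pow_mul, show m * u * p ^ a = p ^ a * m * u by ring, ← hcard, pow_mul,
      pow_card_eq_one', one_pow]
  · show f (c ^ (m * u)) = f c
    rw [map_pow, pow_mul]
    exact hu

/-- **Cyclic `p`-class group**: every unramified Galois `p`-extension is cyclic, of degree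
dividing the class number. -/
theorem cyclic_of_cyclic_pClassGroup {K L : Type} [Field K] [NumberField K] [Field L]
    [NumberField L] [Algebra K L] [IsGalois K L]
    (hC : IsCyclic (CommGroup.primaryComponent (ClassGroup (𝓞 K)) p))
    (hG : IsPGroup p (L ≃ₐ[K] L)) (hu : UnrEverywhere K L) :
    IsCyclic (L ≃ₐ[K] L) ∧ Module.finrank K L ∣ classNumber K := by
  have : Group.IsNilpotent (L ≃ₐ[K] L) := hG.isNilpotent
  let X : IntermediateField K L := IntermediateField.fixedField (commutator (L ≃ₐ[K] L))
  have : (commutator (L ≃ₐ[K] L)).Normal := inferInstance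
  have : IsGalois K X := IsGalois.of_fixedField_normal_subgroup _
  have : NumberField X := NumberField.of_module_finite K X
  let e : (L ≃ₐ[K] L) ⧸ commutator (L ≃ₐ[K] L) ≃* (X ≃ₐ[K] X) :=
    IsGalois.normalAutEquivQuotient _
  have hc : ∀ g h : X ≃ₐ[K] X, g * h = h * g := fun g h => by
    obtain ⟨g, rfl⟩ := e.surjective g
    obtain ⟨h, rfl⟩ := e.surjective h
    rw [← map_mul, ← map_mul]
    exact congrArg e (mul_comm (G := Abelianization (L ≃ₐ[K] L)) g h)
  have : Algebra.IsAlgebraic X L := Algebra.IsAlgebraic.of_finite X L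
  obtain ⟨f, hf⟩ := exists_classGroup_surjective hc (hu.bot (E := X))
  have hXp : IsPGroup p (X ≃ₐ[K] X) := (hG.to_quotient _).of_equiv e
  have hXc : IsCyclic ((L ≃ₐ[K] L) ⧸ commutator (L ≃ₐ[K] L)) :=
    e.isCyclic.2 (isCyclic_of_primaryComponent f hf hXp hC)
  have hcyc := isCyclic_of_isCyclic_abelianization hXc
  refine ⟨hcyc, ?_⟩
  have hcomm : ∀ g h : L ≃ₐ[K] L, g * h = h * g := fun g h =>
    @mul_comm' _ _ IsCyclic.isMulCommutative g h
  obtain ⟨f', hf'⟩ := exists_classGroup_surjective hcomm hu
  rw [← IsGalois.card_aut_eq_finrank K L, classNumber, ← Nat.card_eq_fintype_card]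
  exact Subgroup.card_dvd_of_surjective f' hf'

/-- The prime-to-`p` torsion of a finite abelian group has index the `p`-part of the order. -/
theorem index_ker_powMonoidHom {C : Type*} [CommGroup C] [Finite C] {a m : ℕ} (hm : ¬ p ∣ m)
    (hcard : Nat.card C = p ^ a * m) : (powMonoidHom (α := C) m).ker.index = p ^ a := by
  set f := powMonoidHom (α := C) m
  have hR : IsPGroup p f.range := fun x => by
    obtain ⟨y, hy⟩ := x.2
    refine ⟨a, Subtype.ext ?_⟩
    rw [Subgroup.coe_pow, ← hy, powMonoidHom_apply, ← pow_mul, mul_comm, ← hcard,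
      pow_card_eq_one', Subgroup.coe_one]
  obtain ⟨i, hi⟩ := IsPGroup.iff_card.1 hR
  have hk : ¬ p ∣ Nat.card f.ker := fun h => by
    obtain ⟨x, hx⟩ := exists_prime_orderOf_dvd_card' p h
    refine hm (hx ▸ orderOf_dvd_of_pow_eq_one (Subtype.ext ?_))
    exact x.2
  have h1 : p ^ i * Nat.card f.ker = p ^ a * m := by
    rw [← hcard, ← hi, ← Subgroup.index_ker, mul_comm, Subgroup.card_mul_index]
  rw [Subgroup.index_ker, hi]
  refine congrArg _ (le_antisymm ?_ ?_)
  · have h2 : p ^ i ∣ p ^ a := (((Nat.Prime.coprime_iff_not_dvd hp.out).2 hm).pow_left i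
      ).dvd_of_dvd_mul_right (h1 ▸ dvd_mul_right _ _)
    exact (Nat.pow_dvd_pow_iff_le_right hp.out.one_lt).1 h2
  · have h2 : p ^ a ∣ p ^ i := (((Nat.Prime.coprime_iff_not_dvd hp.out).2 hk).pow_left a
      ).dvd_of_dvd_mul_right (h1.symm ▸ dvd_mul_right _ _)
    exact (Nat.pow_dvd_pow_iff_le_right hp.out.one_lt).1 h2

/-- **The `p`-class field with class number prime to `p`**, for cyclic `p`-class group. -/
theorem exists_pClassField {K : Type} [Field K] [NumberField K]
    (hC : IsCyclic (CommGroup.primaryComponent (ClassGroup (𝓞 K)) p)) :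
    ∃ (L : Type) (_ : Field L) (_ : NumberField L) (_ : Algebra K L),
      IsGalois K L ∧ IsCyclic (L ≃ₐ[K] L) ∧ UnrEverywhere K L ∧
      Module.finrank K L = p ^ (classNumber K).factorization p ∧ ¬ p ∣ classNumber L := by
  obtain ⟨H, _, _, _, hH⟩ := exists_isHilbertClassField K
  have := hH.isGalois
  let G := H ≃ₐ[K] H
  let _ : CommGroup G := { (inferInstance : Group G) with mul_comm := hH.comm }
  obtain ⟨a, m, hm, hcard⟩ := Nat.exists_eq_pow_mul_and_not_dvd
    (classNumber_ne_zero K) p hp.out.ne_one
  have ha : (classNumber K).factorization p = a := by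
    rw [hcard, Nat.factorization_mul (pow_ne_zero _ hp.out.ne_zero) (fun h => by simp [h] at hm),
      Finsupp.add_apply, Nat.factorization_eq_zero_of_not_dvd hm, hp.out.factorization_pow,
      Finsupp.single_eq_same, add_zero]
  let N : Subgroup G := (powMonoidHom m).ker
  have : N.Normal := inferInstance
  let L : IntermediateField K H := IntermediateField.fixedField N
  have : IsGalois K L := IsGalois.of_fixedField_normal_subgroup N
  have : NumberField L := NumberField.of_module_finite K L
  have : Algebra.IsAlgebraic L H := Algebra.IsAlgebraic.of_finite L H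
  let eL : G ⧸ N ≃* (L ≃ₐ[K] L) := IsGalois.normalAutEquivQuotient N
  have hd : Module.finrank K L = p ^ a := by
    rw [← IsGalois.card_aut_eq_finrank K L, ← Nat.card_congr eL.toEquiv, ← Subgroup.index_eq_card]
    refine index_ker_powMonoidHom hm ?_
    rw [IsGalois.card_aut_eq_finrank, hH.finrank_eq, hcard]
  have hu : UnrEverywhere K L := hH.unr.bot
  have hLp : IsPGroup p (L ≃ₐ[K] L) :=
    IsPGroup.of_card (n := a) (by rw [IsGalois.card_aut_eq_finrank, hd])
  refine ⟨L, inferInstance, inferInstance, inferInstance, inferInstance,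
    (cyclic_of_cyclic_pClassGroup hC hLp hu).1, hu, by rw [ha, hd], fun hdvd => ?_⟩
  -- the `p`-part of the Hilbert class field of `L` is again a `p`-extension of `K`
  obtain ⟨M, _, _, _, hM⟩ := exists_isHilbertClassField L
  let _ : Algebra K M := ((algebraMap L M).comp (algebraMap K L)).toAlgebra
  have : IsScalarTower K L M := IsScalarTower.of_algebraMap_eq fun _ => rfl
  have := hM.isGalois
  have : IsGalois K M := hM.isGalois_base hu
  obtain ⟨b, m', hm', hcard'⟩ := Nat.exists_eq_pow_mul_and_not_dvd
    (classNumber_ne_zero L) p hp.out.ne_one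
  have hb : b ≠ 0 := fun hb => hm' (by rwa [hcard', hb, pow_zero, one_mul] at hdvd)
  let A := M ≃ₐ[L] M
  let _ : CommGroup A := { (inferInstance : Group A) with mul_comm := hM.comm }
  let j : A →* (M ≃ₐ[K] M) := MonoidHom.mk' (fun s => s.restrictScalars K) fun _ _ => rfl
  have hj : Function.Injective j := fun s t h => AlgEquiv.ext fun x => AlgEquiv.congr_fun h x
  let N' : Subgroup (M ≃ₐ[K] M) := (powMonoidHom (α := A) m').ker.map j
  have hjmem : ∀ s : M ≃ₐ[K] M, s ∈ j.range ↔ AlgEquiv.restrictNormalHom L s = 1 := fun s => by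
    constructor
    · rintro ⟨t, rfl⟩
      exact AlgEquiv.ext fun z => (algebraMap L M).injective
        (((t.restrictScalars K).restrictNormal_commutes L z).trans (t.commutes z))
    · intro hs
      have h : ∀ z : L, s.toRingEquiv (algebraMap L M z) = algebraMap L M z := fun z =>
        (s.restrictNormal_commutes L z).symm.trans (congrArg _ (AlgEquiv.congr_fun hs z))
      exact ⟨AlgEquiv.ofRingEquiv h, AlgEquiv.ext fun _ => rfl⟩
  have hN' : N'.Normal := ⟨fun s hs g => by
    obtain ⟨t, ht, rfl⟩ := hs
    obtain ⟨t', ht'⟩ := (hjmem (g * j t * g⁻¹)).2 (by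
      rw [map_mul, map_mul, map_inv, (hjmem _).1 ⟨t, rfl⟩, mul_one, mul_inv_cancel])
    refine ⟨t', hj ?_, ht'⟩
    rw [powMonoidHom_apply, map_pow, ht', conj_pow, ← map_pow,
      show t ^ m' = 1 from ht, map_one, mul_one, mul_inv_cancel]⟩
  have hidx : N'.index = p ^ (a + b) := by
    have h1 : Nat.card N' * N'.index = p ^ a * (p ^ b * m') := by
      rw [Subgroup.card_mul_index, IsGalois.card_aut_eq_finrank,
        ← Module.finrank_mul_finrank K L M, hM.finrank_eq, hd, hcard']
    have h2 : Nat.card N' * p ^ b = p ^ b * m' := by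
      rw [show Nat.card N' = Nat.card (powMonoidHom (α := A) m').ker from
          (Nat.card_congr ((powMonoidHom (α := A) m').ker.equivMapOfInjective j hj).toEquiv).symm,
        ← index_ker_powMonoidHom (C := A) hm' (by
          rw [IsGalois.card_aut_eq_finrank, hM.finrank_eq, hcard']),
        Subgroup.card_mul_index, IsGalois.card_aut_eq_finrank, hM.finrank_eq, hcard',
        index_ker_powMonoidHom (C := A) hm' (by
          rw [IsGalois.card_aut_eq_finrank, hM.finrank_eq, hcard'])]
    rw [mul_comm, Nat.mul_left_cancel_iff (pow_pos hp.out.pos b)] at h2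
    rw [h2, ← mul_assoc, mul_comm (p ^ a * p ^ b)] at h1
    rw [pow_add]
    exact Nat.eq_of_mul_eq_mul_left (Nat.pos_of_ne_zero (n := m') fun h => hm' (h ▸ dvd_zero p)) h1
  let Y : IntermediateField K M := IntermediateField.fixedField N'
  have : IsGalois K Y := IsGalois.of_fixedField_normal_subgroup N'
  have : NumberField Y := NumberField.of_module_finite K Y
  have : Algebra.IsAlgebraic Y M := Algebra.IsAlgebraic.of_finite Y M
  let eY : (M ≃ₐ[K] M) ⧸ N' ≃* (Y ≃ₐ[K] Y) := IsGalois.normalAutEquivQuotient N'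
  have hcardY : Nat.card (Y ≃ₐ[K] Y) = p ^ (a + b) := by
    rw [← Nat.card_congr eY.toEquiv, ← Subgroup.index_eq_card, hidx]
  obtain ⟨-, h3⟩ := cyclic_of_cyclic_pClassGroup hC (IsPGroup.of_card (n := a + b) hcardY)
    ((hu.trans hM.unr).bot (E := Y))
  rw [← IsGalois.card_aut_eq_finrank K Y, hcardY, hcard] at h3
  have h4 : p ^ (a + b) ∣ p ^ a := (((Nat.Prime.coprime_iff_not_dvd hp.out).2 hm).pow_left _
    ).dvd_of_dvd_mul_right h3
  have := (Nat.pow_dvd_pow_iff_le_right hp.out.one_lt).1 h4
  omega

end Fermat.Agent.ClassFieldTower
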