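import Fermat.Agent.ClassFieldTower.Basic

/-!
# The class field tower

A number field lies in a field of class number one exactly when its solvable extensions unramified
at every place have bounded degree, exactly when its class field tower becomes stationary.
-/

set_option autoImplicit false
set_option linter.unusedSectionVars false

noncomputable section

namespace Fermat.Agent.ClassFieldTower

open NumberField
open IntermediateField (fixingSubgroup_sup)

/-- Isomorphic number fields have the same class number. -/
theorem classNumber_eq_of_ringEquiv {F F' : Type} [Field F] [NumberField F] [Field F']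
    [NumberField F'] (e : F ≃+* F') : classNumber F = classNumber F' :=
  Fintype.card_congr (ClassGroup.mulEquiv (RingOfIntegers.mapRingEquiv e)).toEquiv

variable {K : Type} [Field K] [NumberField K]

/-- **A field of class number one contains every solvable unramified extension.** -/
theorem nonempty_algHom_of_classNumber_eq_one {L F : Type} [Field L] [NumberField L] [Field F]
    [NumberField F] [Algebra K L] [Algebra K F] [IsGalois K L] [Group.IsSolvable (L ≃ₐ[K] L)]
    (h : UnrEverywhere K L) (hF : classNumber F = 1) : Nonempty (L →ₐ[K] F) := by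
  let f : L →ₐ[K] AlgebraicClosure K := IsAlgClosed.lift
  let g : F →ₐ[K] AlgebraicClosure K := IsAlgClosed.lift
  have : FiniteDimensional K f.fieldRange :=
    (AlgEquiv.ofInjectiveField f).toLinearEquiv.finiteDimensional
  have : FiniteDimensional K g.fieldRange :=
    (AlgEquiv.ofInjectiveField g).toLinearEquiv.finiteDimensional
  let C : IntermediateField K (AlgebraicClosure K) := f.fieldRange ⊔ g.fieldRange
  let A : IntermediateField K C := IntermediateField.restrict (le_sup_left : f.fieldRange ≤ C)
  let B : IntermediateField K C := IntermediateField.restrict (le_sup_right : g.fieldRange ≤ C)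
  have hAB : A ⊔ B = ⊤ := by
    rw [← IntermediateField.lift_inj, IntermediateField.lift_top, IntermediateField.lift_sup,
      IntermediateField.lift_restrict, IntermediateField.lift_restrict]
  have : NumberField C := NumberField.of_module_finite K C
  have : NumberField A := NumberField.of_module_finite K A
  have : NumberField B := NumberField.of_module_finite K B
  let eA : L ≃ₐ[K] A := (AlgEquiv.ofInjectiveField f).trans
    (IntermediateField.restrictAlgEquiv (le_sup_left : f.fieldRange ≤ C))
  let eB : F ≃ₐ[K] B := (AlgEquiv.ofInjectiveField g).trans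
    (IntermediateField.restrictAlgEquiv (le_sup_right : g.fieldRange ≤ C))
  have : IsGalois K A := IsGalois.of_algEquiv eA
  have : IsGalois B C := IsGalois.sup_right A B hAB
  have hinj : Function.Injective (restrictBase K A B C) := by
    rw [injective_iff_map_eq_one]
    intro s hs
    have hmem : s.restrictScalars K ∈ (A ⊔ B).fixingSubgroup := by
      rw [fixingSubgroup_sup]
      refine ⟨(IntermediateField.mem_fixingSubgroup_iff _ _).2 fun x hx => ?_,
        (IntermediateField.mem_fixingSubgroup_iff _ _).2 fun x hx => s.commutes ⟨x, hx⟩⟩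
      exact (algebraMap_restrictBase (K := K) (L := A) s ⟨x, hx⟩).symm.trans
        (by rw [hs]; rfl)
    rw [hAB, IntermediateField.fixingSubgroup_top, Subgroup.mem_bot] at hmem
    exact AlgEquiv.ext fun x => AlgEquiv.congr_fun hmem x
  have : Group.IsSolvable (A ≃ₐ[K] A) :=
    Group.isSolvable_of_surjective (f := eA.autCongr.toMonoidHom) eA.autCongr.surjective
  have : Group.IsSolvable (C ≃ₐ[B] C) := Group.isSolvable_of_isSolvable_injective hinj
  have hu : UnrEverywhere B C := (h.of_algEquiv eA.symm).baseChange hinj
  have hone : Module.finrank B C = 1 := by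
    by_contra hne
    have := hu.2
    obtain ⟨l, hl, -, hdvd⟩ := FA.ClassField94.exists_prime_dvd_classNumber hu.1 hne
    rw [← classNumber_eq_of_ringEquiv eB.toRingEquiv, hF] at hdvd
    exact hl.not_dvd_one hdvd
  have hB : B = ⊤ := IntermediateField.finrank_eq_one_iff_eq_top.1 hone
  have hle : f.fieldRange ≤ g.fieldRange := fun x hx => by
    have hx' : (⟨x, (le_sup_left : f.fieldRange ≤ C) hx⟩ : C) ∈ B := hB ▸ IntermediateField.mem_top
    exact (IntermediateField.mem_restrict (le_sup_right : g.fieldRange ≤ C)
      ⟨x, (le_sup_left : f.fieldRange ≤ C) hx⟩).1 hx'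
  exact ⟨((AlgEquiv.ofInjectiveField g).symm.toAlgHom.comp (IntermediateField.inclusion hle)).comp
    (AlgEquiv.ofInjectiveField f).toAlgHom⟩

/-- The degrees of solvable extensions of `K` unramified at every place are at most `B`. -/
def UnrSolvableBound (K : Type) [Field K] [NumberField K] (B : ℕ) : Prop :=
  ∀ (L : Type) [Field L] [NumberField L] [Algebra K L] [IsGalois K L],
    Group.IsSolvable (L ≃ₐ[K] L) → UnrEverywhere K L → Module.finrank K L ≤ B

theorem unrSolvableBound_of_classNumber_eq_one {F : Type} [Field F] [NumberField F] [Algebra K F]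
    (hF : classNumber F = 1) : UnrSolvableBound K (Module.finrank K F) := fun L _ _ _ _ hs hu => by
  have := hs
  obtain ⟨φ⟩ := nonempty_algHom_of_classNumber_eq_one hu hF
  exact LinearMap.finrank_le_finrank_of_injective (f := φ.toLinearMap) φ.toRingHom.injective

local notation "Ω" => AlgebraicClosure K

/-- `L` is the Hilbert class field of `E`, both inside the algebraic closure. -/
def IsHilbertStep (E L : IntermediateField K Ω) : Prop :=
  ∃ (h : E ≤ L) (_ : NumberField E) (_ : NumberField L),
    letI := (IntermediateField.inclusion h).toRingHom.toAlgebra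
    IsHilbertClassField E L

/-- **The class field tower** of `K`. -/
structure IsHilbertTower (T : ℕ → IntermediateField K Ω) : Prop where
  zero : T 0 = ⊥
  step : ∀ n, IsHilbertStep (T n) (T (n + 1))

theorem exists_isHilbertStep (E : IntermediateField K Ω) [FiniteDimensional K E] :
    ∃ L : IntermediateField K Ω, FiniteDimensional K L ∧ IsHilbertStep E L := by
  have : NumberField E := NumberField.of_module_finite K E
  obtain ⟨L, _, _, _, hL⟩ := exists_isHilbertClassField E
  let j : L →ₐ[E] Ω := IsAlgClosed.lift
  let M : IntermediateField K Ω := j.fieldRange.restrictScalars K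
  have : FiniteDimensional E j.fieldRange :=
    (AlgEquiv.ofInjectiveField j).toLinearEquiv.finiteDimensional
  have hM : FiniteDimensional K M := (Module.Finite.trans E j.fieldRange : Module.Finite K _)
  have hle : E ≤ M := fun x hx => ⟨algebraMap E L ⟨x, hx⟩, j.commutes ⟨x, hx⟩⟩
  have hnf : NumberField M := NumberField.of_module_finite K M
  refine ⟨M, hM, hle, inferInstance, hnf, ?_⟩
  let _ : Algebra E M := (IntermediateField.inclusion hle).toRingHom.toAlgebra
  exact hL.of_algEquiv
    (AlgEquiv.ofRingEquiv (f := (AlgEquiv.ofInjectiveField j).toRingEquiv) fun z =>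
      Subtype.ext (j.commutes z))

theorem exists_isHilbertTower : ∃ T : ℕ → IntermediateField K Ω, IsHilbertTower T := by
  choose next hnext hstep using fun E : {E : IntermediateField K Ω // FiniteDimensional K E} =>
    @exists_isHilbertStep K _ _ E.1 E.2
  let T : ℕ → {E : IntermediateField K Ω // FiniteDimensional K E} := fun n =>
    Nat.rec ⟨⊥, inferInstance⟩ (fun _ E => ⟨next E, hnext E⟩) n
  exact ⟨fun n => (T n).1, rfl, fun n => hstep (T n)⟩

theorem unrEverywhere_self : UnrEverywhere K K :=
  ⟨unramifiedPrimes_of_inertia_eq_bot fun Q _ _ => (Subgroup.eq_bot_iff_forall _).2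
    fun s _ => AlgEquiv.ext fun x => s.commutes x, IsUnramifiedAtInfinitePlaces.id K⟩

variable {T : ℕ → IntermediateField K (AlgebraicClosure K)}

/-- Each field of the tower is solvable and unramified over `K`. -/
theorem IsHilbertTower.props (hT : IsHilbertTower T) (n : ℕ) :
    ∃ _ : NumberField (T n), IsGalois K (T n) ∧ Group.IsSolvable (T n ≃ₐ[K] T n) ∧
      UnrEverywhere K (T n) := by
  induction n with
  | zero =>
    rw [hT.zero]
    let e := (IntermediateField.botEquiv K Ω).symm
    have : NumberField (⊥ : IntermediateField K Ω) := NumberField.of_module_finite K _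
    refine ⟨inferInstance, IsGalois.of_algEquiv e, ?_, unrEverywhere_self.of_algEquiv e.symm⟩
    have : Subsingleton (K ≃ₐ[K] K) := ⟨fun a b =>
      AlgEquiv.ext fun x => (a.commutes x).trans (b.commutes x).symm⟩
    have : Group.IsSolvable (K ≃ₐ[K] K) := inferInstance
    exact Group.isSolvable_of_surjective (f := e.autCongr.toMonoidHom) e.autCongr.surjective
  | succ n ih =>
    obtain ⟨h1, hg, hs, hu⟩ := ih
    obtain ⟨hle, _, hn, hL⟩ := hT.step n
    let _ : Algebra (T n) (T (n + 1)) := (IntermediateField.inclusion hle).toRingHom.toAlgebra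
    have : IsScalarTower K (T n) (T (n + 1)) := IsScalarTower.of_algebraMap_eq fun _ => rfl
    have := hL.isGalois
    have hgal : IsGalois K (T (n + 1)) := hL.isGalois_base hu
    have : Group.IsSolvable (T (n + 1) ≃ₐ[T n] T (n + 1)) := Group.isSolvable_of_comm hL.comm
    exact ⟨hn, hgal, isSolvable_base (E := T n), hu.trans hL.unr⟩

/-- The degree grows by the class number. -/
theorem IsHilbertTower.finrank_succ (hT : IsHilbertTower T) (n : ℕ) [NumberField (T n)] :
    Module.finrank K (T (n + 1)) = Module.finrank K (T n) * classNumber (T n) := by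
  obtain ⟨hle, _, hn, hL⟩ := hT.step n
  let _ : Algebra (T n) (T (n + 1)) := (IntermediateField.inclusion hle).toRingHom.toAlgebra
  have : IsScalarTower K (T n) (T (n + 1)) := IsScalarTower.of_algebraMap_eq fun _ => rfl
  rw [← hL.finrank_eq, Module.finrank_mul_finrank]

/-- Class numbers above one make the tower grow at least as fast as `2 ^ n`. -/
theorem IsHilbertTower.two_pow_le (hT : IsHilbertTower T) (n : ℕ)
    (h : ∀ m < n, ∀ _ : NumberField (T m), classNumber (T m) ≠ 1) :
    2 ^ n ≤ Module.finrank K (T n) := by
  induction n with
  | zero => rw [hT.zero, IntermediateField.finrank_bot, pow_zero]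
  | succ n ih =>
    obtain ⟨h1, -⟩ := hT.props n
    rw [hT.finrank_succ n, pow_succ]
    refine Nat.mul_le_mul (ih fun m hm => h m (hm.trans n.lt_succ_self)) ?_
    have := h n n.lt_succ_self h1
    have : 0 < classNumber (T n) := Fintype.card_pos
    omega

theorem IsHilbertTower.succ_eq (hT : IsHilbertTower T) (n : ℕ) [NumberField (T n)]
    (h : classNumber (T n) = 1) : T (n + 1) = T n := by
  obtain ⟨hle, -⟩ := hT.step n
  obtain ⟨_, -⟩ := hT.props (n + 1)
  have : FiniteDimensional K (T (n + 1)) := Module.Finite.of_restrictScalars_finite ℚ K _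
  exact (IntermediateField.eq_of_le_of_finrank_le hle (by rw [hT.finrank_succ n, h, mul_one])).symm

theorem IsHilbertTower.classNumber_eq_one_of_succ_eq (hT : IsHilbertTower T) (n : ℕ)
    [NumberField (T n)] (h : T (n + 1) = T n) : classNumber (T n) = 1 := by
  have h1 := hT.finrank_succ n
  rw [h] at h1
  have : FiniteDimensional K (T n) := Module.Finite.of_restrictScalars_finite ℚ K _
  exact Nat.eq_of_mul_eq_mul_left Module.finrank_pos (h1.symm.trans (mul_one _).symm)

theorem IsHilbertTower.stationary (hT : IsHilbertTower T) (n : ℕ) [NumberField (T n)]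
    (h : classNumber (T n) = 1) (m : ℕ) (hm : n ≤ m) : T m = T n := by
  induction m, hm using Nat.le_induction with
  | base => rfl
  | succ m hm ih =>
    obtain ⟨_, -⟩ := hT.props m
    rw [hT.succ_eq m ?_, ih]
    rw [classNumber_eq_of_ringEquiv (IntermediateField.equivOfEq ih).toRingEquiv, h]

/-- A bound on solvable unramified extensions makes the tower reach class number one. -/
theorem IsHilbertTower.exists_classNumber_eq_one (hT : IsHilbertTower T) {B : ℕ}
    (hB : UnrSolvableBound K B) : ∃ (n : ℕ) (_ : NumberField (T n)), classNumber (T n) = 1 := by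
  by_contra hne
  push Not at hne
  obtain ⟨_, hg, hs, hu⟩ := hT.props (B + 1)
  have h1 := hT.two_pow_le (B + 1) fun m _ hi => hne m hi
  have h2 := hB (T (B + 1)) hs hu
  have := (B + 1).lt_two_pow_self
  omega

end Fermat.Agent.ClassFieldTower
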